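import Fermat.Agent.FlatModel.Elliptic.Forms
import Fermat.Agent.FlatModel.Descent
import Fermat.Agent.FlatModel.Points

/-!
# Flat models of finite groups of points at a place of good reduction

The functions are the coordinates divided by a linear form avoiding the reduced points; the sum
is computed by the chord law after translating the summands by opposite auxiliary points.

Main result: `nonempty_model_of_translate`.
-/

set_option autoImplicit false

noncomputable section

open WeierstrassCurve IsLocalRing
open scoped WeierstrassCurve.Projective Pointwise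

namespace Fermat.Agent.FlatModel.Elliptic

variable {ℓ : ℕ} [Fact ℓ.Prime] {A : ValuationSubring Qbar}

local notation "ρA" => IsLocalRing.residue A

open scoped Classical in
/-- A finite stable group of points at a place of good reduction has a flat model. -/
theorem nonempty_model_of_translate (hA : A.LiesOverPrime ℓ) (V : WeierstrassCurve A)
    (hΔ : (V.map (residue A)).Δ ≠ 0) {G : Type} [AddCommGroup G] [Finite G]
    (act : GalQ →* AddMonoid.End G)
    (ι : G →+ (V.map A.subtype).toAffine.Point) (hι : Function.Injective ι)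
    (hact : ∀ (σ : GalQ) (a : G) (u : Fin 3 → Qbar),
      (V.map A.subtype).toProjective.Nonsingular u →
      Projective.Point.toAffine (V.map A.subtype).toProjective u = ι a →
        (V.map A.subtype).toProjective.Nonsingular (σ ∘ u) ∧
        Projective.Point.toAffine (V.map A.subtype).toProjective (σ ∘ u) = ι (act σ a))
    (T : (V.map A.subtype).toAffine.Point)
    (hT : ∀ a : G,
      EC.Reduction.red (residue A) (V.map (residue A)) (ι a) ≠
          EC.Reduction.red (residue A) (V.map (residue A)) T ∧
      EC.Reduction.red (residue A) (V.map (residue A)) (ι a) ≠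
          -EC.Reduction.red (residue A) (V.map (residue A)) T ∧
      EC.Reduction.red (residue A) (V.map (residue A)) (ι a) ≠
          EC.Reduction.red (residue A) (V.map (residue A)) T +
            EC.Reduction.red (residue A) (V.map (residue A)) T) :
    Nonempty (Model ℓ act) := by
  classical
  let E := V.map A.subtype
  have hred : EC.Reduction.Reduces ρA E (V.map ρA) := reduces_map
  let r := EC.Reduction.redGood hred hΔ
  -- normalised vectors
  choose v₀ hv₀ using fun a : G => exists_rep (π := ρA) hΔ (ι a)
  obtain ⟨t, ht⟩ := exists_rep (π := ρA) hΔ T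
  obtain ⟨t', ht'⟩ := exists_rep (π := ρA) hΔ (-T)
  obtain ⟨N, c, hN, hfix, hunit⟩ :=
    exists_unit_form hA v₀ fun a => ne_zero_of_nonsingular (hv₀ a).2.2.1
  choose e he using fun a => hunit a
  let v : G → Fin 3 → A := fun a => (↑(e a)⁻¹ : A) • v₀ a
  have hv : ∀ a, Rep ρA V (ι a) (v a) := fun a => (hv₀ a).smul (Units.isUnit _)
  have hl : ∀ a, form c (v a) = 1 := fun a => by rw [form_smul, ← he a, Units.inv_mul]
  have hlQ : ∀ a, form (c : Qbar) (A.subtype ∘ v a) = 1 := fun a => by
    rw [← map_one A.subtype, ← hl a, map_form]; rfl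
  -- the vector of a point is determined up to a factor
  have huniq : ∀ a (u : Fin 3 → Qbar), E.toProjective.Nonsingular u →
      Projective.Point.toAffine E.toProjective u = ι a →
      ∀ i, u i = form (c : Qbar) u * (v a i : Qbar) := by
    intro a u hu hua i
    obtain ⟨d, hd⟩ := equiv_of_toAffine_eq hu (hv a).1 (hua.trans (hv a).2.1.symm)
    have hd' : u = (d : Qbar) • (A.subtype ∘ v a) := hd.symm
    rw [hd', form_smul, hlQ, mul_one]
    rfl
  let f : Fin 3 → G → Qbar := fun i a => (v a i : Qbar)
  set 𝓗 : Subalgebra A (G → Qbar) := Algebra.adjoin A (Set.range f) with h𝓗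
  have hfmem : ∀ i, f i ∈ 𝓗 := fun i => Algebra.subset_adjoin ⟨i, rfl⟩
  -- conjugates of the coordinates
  have hconj : ∀ (σ : GalQ) (i : Fin 3) (a : G),
      form (σ (c : Qbar)) (A.subtype ∘ v a) * conjFun act σ (f i) a = f i a ∧
        conjFun act σ (f i) a = σ (v (act σ⁻¹ a) i : Qbar) := by
    intro σ i a
    refine ⟨?_, rfl⟩
    set u : Fin 3 → Qbar := σ ∘ (A.subtype ∘ v (act σ⁻¹ a)) with hu
    obtain ⟨h1, h2⟩ := hact σ _ _ (hv (act σ⁻¹ a)).1 (hv (act σ⁻¹ a)).2.1
    rw [show act σ (act σ⁻¹ a) = a by
      show (act σ * act σ⁻¹) a = a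
      rw [← map_mul, mul_inv_cancel, map_one]; rfl] at h2
    have hp := huniq a u h1 h2
    have hone : form (σ (c : Qbar)) u = 1 := by
      rw [← map_one σ, ← hlQ (act σ⁻¹ a)]
      exact (map_form (σ : Qbar →+* Qbar) (c : Qbar) _).symm
    have hsmul : u = form (c : Qbar) u • (A.subtype ∘ v a) := funext hp
    rw [hsmul, form_smul] at hone
    show _ * u i = (v a i : Qbar)
    rw [hp i, ← mul_assoc, mul_comm (form (σ (c : Qbar)) _), hone, one_mul]
  -- the model
  set U : Subgroup GalQ := ⊤ ⊓ fixer (muSet N : Set Qbar)
  have hU : UnrData ℓ U := (UnrData.top ℓ).inf_muSet hN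
  refine ⟨DescentData.model (A := A) (𝓗 := 𝓗) (U := U)
    ⟨hA, ?_, fun a b hab => ?_, ?_, fun σ hσ => ?_, ?_, hU.closed, hU.normal, hU.finiteIndex,
      hU.trace⟩⟩
  · intro φ hφ a
    induction hφ using Algebra.adjoin_induction with
    | mem w hw => obtain ⟨i, rfl⟩ := hw; exact (v a i).2
    | algebraMap w => exact w.2
    | add p q _ _ hp hq => exact add_mem hp hq
    | mul p q _ _ hp hq => exact mul_mem hp hq
  · -- separation
    have h : v a = v b := funext fun i => Subtype.ext (hab (f i) (hfmem i))
    exact hι (by rw [← (hv a).2.1, h, (hv b).2.1])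
  · -- addition
    set P : Set (G × G → Qbar) :=
      {F | ∃ a ∈ 𝓗, ∃ b ∈ 𝓗, F = fun p => a p.1 * b p.2} with hP
    have hPmon : (Submonoid.closure P : Set (G × G → Qbar)) = P := by
      refine subset_antisymm (fun F hF => ?_) Submonoid.subset_closure
      induction hF using Submonoid.closure_induction with
      | mem F hF => exact hF
      | one => exact ⟨1, one_mem _, 1, one_mem _, funext fun _ => (mul_one 1).symm⟩
      | mul F F' _ _ hF hF' =>
        obtain ⟨a, ha, d, hd, rfl⟩ := hF
        obtain ⟨a', ha', d', hd', rfl⟩ := hF'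
        exact ⟨a * a', mul_mem ha ha', d * d', mul_mem hd hd',
          funext fun p => by simp only [Pi.mul_apply]; ring⟩
    set B := Algebra.adjoin A P with hB
    have hfst : ∀ i, (fun p : G × G => f i p.1) ∈ B := fun i =>
      Algebra.subset_adjoin ⟨f i, hfmem i, 1, one_mem _, funext fun p => (mul_one _).symm⟩
    have hsnd : ∀ i, (fun p : G × G => f i p.2) ∈ B := fun i =>
      Algebra.subset_adjoin ⟨1, one_mem _, f i, hfmem i, funext fun p => (one_mul _).symm⟩
    -- the chord law with values in `B`
    let cB : A →+* B := algebraMap A B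
    let wB : Fin 3 → B := (V.map cB).toProjective.addXYZ
      ((V.map cB).toProjective.addXYZ (fun i => ⟨_, hfst i⟩) (cB ∘ t))
      ((V.map cB).toProjective.addXYZ (fun i => ⟨_, hsnd i⟩) (cB ∘ t'))
    let w : G × G → Fin 3 → A := fun p =>
      V.toProjective.addXYZ (V.toProjective.addXYZ (v p.1) t) (V.toProjective.addXYZ (v p.2) t')
    have hev : ∀ p i, ((wB i : B) : G × G → Qbar) p = (w p i : Qbar) := by
      intro p i
      let ev : B →+* Qbar := (Pi.evalRingHom (fun _ : G × G => Qbar) p).comp B.toSubring.subtype
      have hc : ev.comp cB = A.subtype := RingHom.ext fun _ => rfl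
      have hm : ∀ a b : Fin 3 → B, ev ∘ (V.map cB).toProjective.addXYZ a b =
          E.toProjective.addXYZ (ev ∘ a) (ev ∘ b) := fun a b => by
        rw [← Projective.map_addXYZ ev a b]
        congr 1
      have hmA : ∀ a b : Fin 3 → A, A.subtype ∘ V.toProjective.addXYZ a b =
          E.toProjective.addXYZ (A.subtype ∘ a) (A.subtype ∘ b) := fun a b =>
        (Projective.map_addXYZ A.subtype a b).symm
      show (ev ∘ wB) i = (A.subtype ∘ w p) i
      refine congrFun ?_ i
      rw [hm, hm, hm, hmA, hmA, hmA]
      rfl
    have hrT : r (-T) = -r T := map_neg r T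
    have hw : ∀ p : G × G, Rep ρA V (ι (p.1 + p.2)) (w p) := by
      intro p
      have h1 : Rep ρA V (ι p.1 + T) (V.toProjective.addXYZ (v p.1) t) :=
        (hv p.1).add hΔ ht (hT p.1).1
      have h2 : Rep ρA V (ι p.2 + -T) (V.toProjective.addXYZ (v p.2) t') :=
        (hv p.2).add hΔ ht' (by rw [show EC.Reduction.red ρA (V.map ρA) (-T) = r (-T) from rfl, hrT]
                                exact (hT p.2).2.1)
      have h3 := h1.add hΔ h2 (fun he => (hT (p.2 - p.1)).2.2 (by
        change r (ι p.1 + T) = r (ι p.2 + -T) at he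
        show r (ι (p.2 - p.1)) = r T + r T
        rw [map_add, map_add, hrT] at he
        rw [map_sub, map_sub, sub_eq_iff_eq_add, add_comm]
        rw [eq_add_neg_iff_add_eq] at he
        rw [← he]; abel))
      rw [show ι p.1 + T + (ι p.2 + -T) = ι (p.1 + p.2) by rw [map_add]; abel] at h3
      exact h3
    have hform : (fun p => form (c : Qbar) (A.subtype ∘ w p)) ∈ B := by
      have : (fun p => form (c : Qbar) (A.subtype ∘ w p)) =
          ((form (cB c) wB : B) : G × G → Qbar) := by
        funext p
        simp only [form, Subalgebra.coe_add, Subalgebra.coe_mul, Subalgebra.coe_pow, Pi.add_apply,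
          Pi.mul_apply, Pi.pow_apply, hev]
        rfl
      rw [this]; exact SetLike.coe_mem _
    have hunitw : ∀ p, IsUnit (form c (w p)) := by
      intro p
      rw [← residue_ne_zero_iff_isUnit, map_form]
      obtain ⟨d, hd⟩ := equiv_of_toAffine_eq (hw p).2.2.1 (hv (p.1 + p.2)).2.2.1
        ((hw p).2.2.2.trans (hv (p.1 + p.2)).2.2.2.symm)
      have hd' : ρA ∘ w p = (d : ResidueField A) • (ρA ∘ v (p.1 + p.2)) := hd.symm
      rw [hd', form_smul, ← map_form, hl, map_one, mul_one]
      exact d.ne_zero
    have hinv := inv_mem_of_forall_unit B hform (fun p => form c (w p))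
      (fun p => map_form A.subtype c (w p)) hunitw
    have hgen : ∀ i, (fun p : G × G => f i (p.1 + p.2)) ∈ B := by
      intro i
      have : (fun p : G × G => f i (p.1 + p.2)) =
          (wB i : G × G → Qbar) * fun p => (form (c : Qbar) (A.subtype ∘ w p))⁻¹ := by
        funext p
        have hne : form (c : Qbar) (A.subtype ∘ w p) ≠ 0 := by
          rw [show (c : Qbar) = A.subtype c from rfl, ← map_form]
          exact ((hunitw p).map A.subtype).ne_zero
        rw [Pi.mul_apply, hev, ← div_eq_mul_inv, eq_div_iff hne, mul_comm]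
        exact (huniq _ _ (hw p).1 (hw p).2.1 i).symm
      rw [this]
      exact mul_mem (SetLike.coe_mem _) hinv
    intro φ hφ
    have h1 : (fun p : G × G => φ (p.1 + p.2)) ∈ B := by
      induction hφ using Algebra.adjoin_induction with
      | mem w hw => obtain ⟨i, rfl⟩ := hw; exact hgen i
      | algebraMap a => exact B.algebraMap_mem a
      | add p q _ _ hp hq => exact add_mem hp hq
      | mul p q _ _ hp hq => exact mul_mem hp hq
    rw [← Subalgebra.mem_toSubmodule, hB, Algebra.adjoin_eq_span, hPmon] at h1
    exact h1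
  · -- stability
    intro φ hφ
    induction hφ using Algebra.adjoin_induction with
    | mem w hw =>
      obtain ⟨i, rfl⟩ := hw
      let c' : A := ⟨σ c, (Gal.apply_mem_iff hσ _).mpr c.2⟩
      have hform : (fun a => form (σ (c : Qbar)) (A.subtype ∘ v a)) ∈ 𝓗 := by
        have : (fun a => form (σ (c : Qbar)) (A.subtype ∘ v a)) =
            f 0 + algebraMap A (G → Qbar) c' * f 1 + algebraMap A (G → Qbar) (c' ^ 2) * f 2 :=
          funext fun a => by simp [form, f, c', Algebra.algebraMap_ofSubsemiring_apply]
        rw [this]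
        exact add_mem (add_mem (hfmem 0) (mul_mem (𝓗.algebraMap_mem _) (hfmem 1)))
          (mul_mem (𝓗.algebraMap_mem _) (hfmem 2))
      have hu : ∀ a, IsUnit (form c' (v a)) := by
        intro a
        have hσu : ∀ i, σ (v (act σ⁻¹ a) i : Qbar) ∈ A := fun i =>
          (Gal.apply_mem_iff hσ _).mpr (v (act σ⁻¹ a) i).2
        refine IsUnit.of_mul_eq_one (form c (fun i => ⟨_, hσu i⟩ : Fin 3 → A))
          (Subtype.val_injective (a₁ := (_ : A)) ?_)
        show A.subtype (form c' (v a) * form c _) = A.subtype 1
        rw [map_mul, map_form, map_form, ← form_smul, map_one]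
        have e : form (A.subtype c') (A.subtype ∘ v a) •
            (A.subtype ∘ fun i => (⟨_, hσu i⟩ : A)) = A.subtype ∘ v a := funext fun i => by
          rw [Pi.smul_apply, smul_eq_mul]
          exact (hconj σ i a).1
        rw [e]
        exact hlQ a
      have hinv := inv_mem_of_forall_unit 𝓗 hform (fun a => form c' (v a))
        (fun a => map_form A.subtype c' (v a)) hu
      have : conjFun act σ (f i) =
          (fun a => (form (σ (c : Qbar)) (A.subtype ∘ v a))⁻¹) * f i := by
        funext a
        have hne : form (σ (c : Qbar)) (A.subtype ∘ v a) ≠ 0 := by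
          rw [show σ (c : Qbar) = A.subtype c' from rfl, ← map_form]
          exact ((hu a).map A.subtype).ne_zero
        rw [Pi.mul_apply, eq_inv_mul_iff_mul_eq₀ hne]
        exact (hconj σ i a).1
      rw [this]
      exact mul_mem hinv (hfmem i)
    | algebraMap a =>
      rw [show conjFun act σ (algebraMap A (G → Qbar) a) =
        algebraMap A (G → Qbar) ⟨σ a, (Gal.apply_mem_iff hσ _).mpr a.2⟩ from rfl]
      exact 𝓗.algebraMap_mem _
    | add p q _ _ hp hq => rw [map_add]; exact add_mem hp hq
    | mul p q _ _ hp hq => rw [map_mul]; exact mul_mem hp hq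
  · refine ⟨Set.range f, ?_, rfl⟩
    rintro _ ⟨i, rfl⟩ σ hσ
    funext a
    have hc : σ (c : Qbar) = c := hfix σ (Subgroup.mem_inf.mp hσ).2
    have h := (hconj σ i a).1
    rwa [hc, hlQ, one_mul] at h

end Fermat.Agent.FlatModel.Elliptic
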