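import Fermat.Agent.FlatModel.Elliptic.Vectors
import Fermat.Agent.FlatModel.Roots

/-!
# Linear forms and unit inversion

A linear form avoiding finitely many reduced points, with coefficients roots of unity of order
prime to the residue characteristic, and the inversion of functions with unit values.

Main results: `exists_unit_form` and `inv_mem_of_forall_unit`.
-/

set_option autoImplicit false

noncomputable section

open IsLocalRing Polynomial

namespace Fermat.Agent.FlatModel.Elliptic

/-- The form with coefficients `1, c, c²`. -/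
def form {R : Type*} [CommRing R] (c : R) (v : Fin 3 → R) : R := v 0 + c * v 1 + c ^ 2 * v 2

theorem form_smul {R : Type*} [CommRing R] (c u : R) (v : Fin 3 → R) :
    form c (u • v) = u * form c v := by
  simp only [form, Pi.smul_apply, smul_eq_mul]; ring

theorem map_form {R S : Type*} [CommRing R] [CommRing S] (f : R →+* S) (c : R) (v : Fin 3 → R) :
    f (form c v) = form (f c) (f ∘ v) := by
  simp [form]

/-- Finitely many nonzero vectors over an infinite field are avoided by one such form. -/
theorem exists_form_ne_zero {k : Type*} [Field k] [Infinite k] {ι : Type*} [Finite ι]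
    (w : ι → Fin 3 → k) (hw : ∀ i, w i ≠ 0) : ∃ c : k, ∀ i, form c (w i) ≠ 0 := by
  classical
  cases nonempty_fintype ι
  set q : k[X] := ∏ i, (C (w i 0) + C (w i 1) * X + C (w i 2) * X ^ 2) with hq
  have hq0 : q ≠ 0 := by
    rw [hq, Finset.prod_ne_zero_iff]
    intro i _ h
    refine hw i (funext fun j => ?_)
    have e := fun n => congrArg (fun r : k[X] => r.coeff n) h
    have e0 := e 0
    have e1 := e 1
    have e2 := e 2
    simp only [coeff_zero, coeff_add, coeff_C_mul, coeff_X_pow] at e0 e1 e2
    simp only [coeff_C, coeff_X] at e0 e1 e2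
    fin_cases j <;> simp_all
  obtain ⟨c, hc⟩ : ∃ c, ¬ q.IsRoot c := by
    by_contra h
    push Not at h
    exact hq0 (Polynomial.zero_of_eval_zero q h)
  refine ⟨c, fun i hi => hc ?_⟩
  rw [IsRoot, hq, eval_prod]
  refine Finset.prod_eq_zero (Finset.mem_univ i) ?_
  simp only [eval_add, eval_mul, eval_C, eval_X, eval_pow]
  rw [← hi, form]
  ring

/-- The form over a place. -/
theorem exists_unit_form {ℓ : ℕ} [Fact ℓ.Prime] {A : ValuationSubring Qbar}
    (hA : A.LiesOverPrime ℓ) {ι : Type*} [Finite ι] (u : ι → Fin 3 → A)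
    (hu : ∀ i, residue A ∘ u i ≠ 0) :
    ∃ (N : ℕ) (c : A), ¬ ℓ ∣ N ∧ (∀ σ ∈ fixer (muSet N : Set Qbar), σ (c : Qbar) = c) ∧
      ∀ i, IsUnit (form c (u i)) := by
  have := Gal.isAlgClosed_residueField A
  obtain ⟨t, ht⟩ := exists_form_ne_zero (fun i => residue A ∘ u i) hu
  obtain ⟨N, c, hN, hres, hfix⟩ := exists_root_lift hA fun _ : Unit => t
  refine ⟨N, c (), hN, hfix (), fun i => ?_⟩
  rw [← residue_ne_zero_iff_isUnit, map_form, hres ()]
  exact ht i

/-- An algebra of functions over a place contains the inverses of its members with unit values. -/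
theorem inv_mem_of_forall_unit {A : ValuationSubring Qbar} {X : Type*} [Finite X]
    (B : Subalgebra A (X → Qbar)) {φ : X → Qbar} (hφ : φ ∈ B) (val : X → A)
    (hval : ∀ a, (val a : Qbar) = φ a) (hu : ∀ a, IsUnit (val a)) :
    (fun a => (φ a)⁻¹) ∈ B := by
  classical
  cases nonempty_fintype X
  set q : A[X] := ∏ a, (Polynomial.X - C (val a)) with hq
  have h0 : IsUnit (q.coeff 0) := by
    rw [coeff_zero_eq_eval_zero, hq, eval_prod]
    refine IsUnit.prod_iff.mpr fun a _ => ?_
    simp [(hu a).neg]
  obtain ⟨v, hv⟩ := h0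
  have hroot : aeval φ q = 0 := by
    funext a
    have h := Polynomial.aeval_algHom_apply (Pi.evalAlgHom A (fun _ => Qbar) a) φ q
    simp only [Pi.evalAlgHom_apply] at h
    rw [← h, ← hval a, hq, map_prod, Pi.zero_apply]
    refine Finset.prod_eq_zero (Finset.mem_univ a) ?_
    rw [map_sub, aeval_X, aeval_C, sub_eq_zero]
    rfl
  have hkey : φ * aeval φ q.divX = -algebraMap A (X → Qbar) v := by
    have h := congrArg (aeval φ) (Polynomial.X_mul_divX_add q)
    rw [map_add, map_mul, aeval_X, aeval_C, hroot, ← hv] at h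
    exact eq_neg_of_add_eq_zero_left h
  have he : (fun a => (φ a)⁻¹) = -(algebraMap A (X → Qbar) (↑v⁻¹ : A) * aeval φ q.divX) := by
    funext a
    have h := congrFun hkey a
    simp only [Pi.mul_apply, Pi.neg_apply, Pi.algebraMap_apply] at h ⊢
    refine inv_eq_of_mul_eq_one_right ?_
    rw [mul_neg, mul_left_comm, h, mul_neg, neg_neg, ← map_mul, Units.inv_mul, map_one]
  rw [he]
  exact neg_mem (mul_mem (B.algebraMap_mem _)
    (Algebra.adjoin_le (Set.singleton_subset_iff.mpr hφ) (aeval_mem_adjoin_singleton A φ)))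

end Fermat.Agent.FlatModel.Elliptic
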