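import Fermat.Agent.FlatModel.Elliptic.Core
import Fermat.Agent.EC.Torsion.Main
import Fermat.Prelude.Def_EllipticCurve_FrobeniusTrace

/-!
# Flat models of torsion of an elliptic curve at a good prime

A finite Galois stable group of points of an elliptic curve with good reduction at `ℓ` has a
flat model at `ℓ` (`nonempty_model_points`).
-/

set_option autoImplicit false

noncomputable section

open WeierstrassCurve IsLocalRing
open scoped WeierstrassCurve.Affine

namespace Fermat.Agent.FlatModel.Elliptic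

local notation "EQ" W => ((WeierstrassCurve.map W (Int.castRingHom ℚ))⁄Qbar)

theorem map_intModel_eq (W : WeierstrassCurve ℤ) (A : ValuationSubring Qbar) :
    (W.map (Int.castRingHom A)).map A.subtype = EQ W := by
  show _ = (W.map (Int.castRingHom ℚ)).map (algebraMap ℚ Qbar)
  rw [WeierstrassCurve.map_map, WeierstrassCurve.map_map]
  congr 1

/-- Galois on projective vectors. -/
theorem toAffine_galois (W : WeierstrassCurve ℤ) (σ : GalQ) (u : Fin 3 → Qbar)
    (hu : (EQ W).toProjective.Nonsingular u) :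
    (EQ W).toProjective.Nonsingular (σ ∘ u) ∧
      Projective.Point.toAffine (EQ W).toProjective (σ ∘ u) =
        σ • Projective.Point.toAffine (EQ W).toProjective u := by
  have hmap : (EQ W).map (σ : Qbar →+* Qbar) = EQ W := by
    show ((W.map (Int.castRingHom ℚ)).map (algebraMap ℚ Qbar)).map _ = _
    rw [WeierstrassCurve.map_map]
    congr 1
    exact RingHom.ext_rat _ _
  have hns : (EQ W).toProjective.Nonsingular (σ ∘ u) := by
    have h := (Projective.map_nonsingular (W' := (EQ W).toProjective)
      (f := (σ : Qbar →+* Qbar)) σ.injective u).mpr hu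
    rw [show ((EQ W).toProjective.map (σ : Qbar →+* Qbar)) = (EQ W).toProjective from hmap] at h
    exact h
  refine ⟨hns, ?_⟩
  by_cases hz : u 2 = 0
  · rw [Projective.Point.toAffine_of_Z_eq_zero hz,
      Projective.Point.toAffine_of_Z_eq_zero (show σ (u 2) = 0 by rw [hz, map_zero])]
    exact (smul_zero σ).symm
  · have hz' : σ (u 2) ≠ 0 := (map_ne_zero σ).mpr hz
    rw [Projective.Point.toAffine_of_Z_ne_zero hu hz,
      Projective.Point.toAffine_of_Z_ne_zero hns hz', Affine.Point.algEquiv_smul_def,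
      Affine.Point.map_some, Affine.Point.some.injEq]
    exact ⟨(map_div₀ σ _ _).symm, (map_div₀ σ _ _).symm⟩

variable {ℓ : ℕ} [Fact ℓ.Prime] {A : ValuationSubring Qbar}

open scoped Classical in
theorem nonempty_model_of_translate' (hA : A.LiesOverPrime ℓ) (V : WeierstrassCurve A)
    {E : WeierstrassCurve Qbar} {W₀ : WeierstrassCurve (ResidueField A)}
    (hE : V.map A.subtype = E) (hW₀ : V.map (residue A) = W₀) (hΔ : W₀.Δ ≠ 0) {G : Type}
    [AddCommGroup G] [Finite G] (act : GalQ →* AddMonoid.End G) (ι : G →+ E.toAffine.Point)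
    (hι : Function.Injective ι)
    (hact : ∀ (σ : GalQ) (a : G) (u : Fin 3 → Qbar), E.toProjective.Nonsingular u →
      Projective.Point.toAffine E.toProjective u = ι a →
        E.toProjective.Nonsingular (σ ∘ u) ∧
        Projective.Point.toAffine E.toProjective (σ ∘ u) = ι (act σ a))
    (T : E.toAffine.Point)
    (hT : ∀ a : G,
      EC.Reduction.red (residue A) W₀ (ι a) ≠ EC.Reduction.red (residue A) W₀ T ∧
      EC.Reduction.red (residue A) W₀ (ι a) ≠ -EC.Reduction.red (residue A) W₀ T ∧
      EC.Reduction.red (residue A) W₀ (ι a) ≠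
          EC.Reduction.red (residue A) W₀ T + EC.Reduction.red (residue A) W₀ T) :
    Nonempty (Model ℓ act) := by
  subst hE hW₀
  exact nonempty_model_of_translate hA V hΔ act ι hι hact T hT

/-- **Good reduction**: a finite stable group of points has a flat model at `ℓ ∤ Δ`. -/
theorem nonempty_model_points {W : WeierstrassCurve ℤ} (hgood : ¬ (ℓ : ℤ) ∣ W.Δ) {G : Type}
    [AddCommGroup G] [Finite G] (act : GalQ →* AddMonoid.End G) (ι : G →+ (EQ W).Point)
    (hι : Function.Injective ι) (hact : ∀ σ a, ι (act σ a) = σ • ι a) :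
    Nonempty (Model ℓ act) := by
  classical
  have hΔ : W.Δ ≠ 0 := fun h => hgood (h ▸ dvd_zero _)
  have hℓ : ℓ.Prime := Fact.out
  obtain ⟨A, hA⟩ := Gal.exists_liesOverPrime (L := Qbar) hℓ
  set W₀ := W.map (Int.castRingHom (ResidueField A))
  have hΔ₀ : W₀.Δ ≠ 0 := EC.Reduction.Δ_intModel_ne_zero (residue A) hℓ hA hgood
  have hred := EC.Reduction.reduces_intModel (K := Qbar) W (residue A)
  let ρ := EC.Reduction.redGood hred hΔ₀
  -- an auxiliary point of large prime order
  obtain ⟨r, hr, hrp⟩ := Nat.exists_infinite_primes (Nat.card G + ℓ + 3)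
  have hrℓ : ¬ ℓ ∣ r := fun h => by
    rw [Nat.prime_dvd_prime_iff_eq hℓ hrp] at h; omega
  have hcard := EC.Torsion.natCard_torsionBy_int W hΔ hrp.ne_zero
  have : Finite (Submodule.torsionBy ℤ (EQ W).Point r) :=
    Nat.finite_of_card_ne_zero (by rw [hcard]; exact pow_ne_zero 2 hrp.ne_zero)
  have : Nontrivial (Submodule.torsionBy ℤ (EQ W).Point r) :=
    Finite.one_lt_card_iff_nontrivial.mp
      (by rw [hcard]; exact Nat.one_lt_pow two_ne_zero hrp.one_lt)
  obtain ⟨T, hT0⟩ := exists_ne (0 : Submodule.torsionBy ℤ (EQ W).Point r)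
  have hρT : ρ T ≠ 0 := fun h => hT0 (EC.Reduction.redTorsion_injective hred hΔ₀
    (EC.Reduction.natCast_ne_zero_of_liesOverPrime (residue A) hℓ hA hrℓ)
    (Subtype.ext (by rw [map_zero]; exact h)))
  have hrT : r • ρ T = 0 := by
    rw [← map_nsmul, ← natCast_zsmul, (Submodule.mem_torsionBy_iff _ _).mp T.2, map_zero]
  have hsep : ∀ (a : G) (m : ℤ), ¬ (r : ℤ) ∣ m → ρ (ι a) ≠ m • ρ T := by
    intro a m hm he
    have hn : (Nat.card G) • ρ (ι a) = 0 := by
      rw [← map_nsmul, ← map_nsmul, card_nsmul_eq_zero', map_zero, map_zero]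
    have hord : addOrderOf (ρ T) = r := by
      have : Fact r.Prime := ⟨hrp⟩
      exact addOrderOf_eq_prime hrT hρT
    rw [he, ← natCast_zsmul, smul_smul, ← addOrderOf_dvd_iff_zsmul_eq_zero, hord] at hn
    rcases (Nat.prime_iff_prime_int.mp hrp).dvd_or_dvd hn with h | h
    · have := Nat.le_of_dvd Nat.card_pos (Int.natCast_dvd_natCast.mp h); omega
    · exact hm h
  refine nonempty_model_of_translate' hA (W.map (Int.castRingHom A)) (map_intModel_eq W A)
    (by rw [WeierstrassCurve.map_map]; congr 1) hΔ₀ act ι hι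
    (fun σ a u hu hua => ⟨(toAffine_galois W σ u hu).1,
      by rw [(toAffine_galois W σ u hu).2, hua, hact]⟩) T fun a => ⟨?_, ?_, ?_⟩
  · intro h
    exact hsep a 1 (fun h1 => by have := Int.le_of_dvd one_pos h1; omega)
      (by rw [one_zsmul]; exact h)
  · intro h
    exact hsep a (-1) (fun h1 => by have := Int.le_of_dvd one_pos (dvd_neg.mp h1); omega)
      (by rw [neg_one_zsmul]; exact h)
  · intro h
    exact hsep a 2 (fun h1 => by have := Int.le_of_dvd two_pos h1; omega)
      (by rw [two_zsmul]; exact h)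

end Fermat.Agent.FlatModel.Elliptic
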