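import Fermat.Agent.EC.Reduction.Torsion
import Mathlib.AlgebraicGeometry.EllipticCurve.Projective.Point

/-!
# Primitive vectors of points and the chord law

At a place of good reduction a point has a primitive projective vector which reduces to the vector
of its reduction, and the chord law computes sums of points with distinct reductions.

Main results: `exists_rep` and `Rep.add`.
-/

set_option autoImplicit false

noncomputable section

open WeierstrassCurve
open scoped WeierstrassCurve.Projective

namespace Fermat.Agent.FlatModel.Elliptic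

local notation3 "x" => (0 : Fin 3)
local notation3 "y" => (1 : Fin 3)
local notation3 "z" => (2 : Fin 3)

section Field

variable {F : Type*} [Field F] {E : WeierstrassCurve.Projective F}

theorem equiv_of_toAffine_eq {P Q : Fin 3 → F} (hP : E.Nonsingular P) (hQ : E.Nonsingular Q)
    (h : Projective.Point.toAffine E P = Projective.Point.toAffine E Q) : P ≈ Q := by
  by_cases hPz : P z = 0
  · by_cases hQz : Q z = 0
    · exact Projective.equiv_of_Z_eq_zero hP hQ hPz hQz
    · rw [Projective.Point.toAffine_of_Z_eq_zero hPz,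
        Projective.Point.toAffine_of_Z_ne_zero hQ hQz] at h
      exact absurd h.symm (Affine.Point.some_ne_zero _)
  · by_cases hQz : Q z = 0
    · rw [Projective.Point.toAffine_of_Z_eq_zero hQz,
        Projective.Point.toAffine_of_Z_ne_zero hP hPz] at h
      exact absurd h (Affine.Point.some_ne_zero _)
    · rw [Projective.Point.toAffine_of_Z_ne_zero hP hPz,
        Projective.Point.toAffine_of_Z_ne_zero hQ hQz, Affine.Point.some.injEq] at h
      exact Projective.equiv_of_X_eq_of_Y_eq hPz hQz ((Projective.X_eq_iff hPz hQz).mpr h.1)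
        ((Projective.Y_eq_iff hPz hQz).mpr h.2)

/-- A nonsingular vector is not zero. -/
theorem ne_zero_of_nonsingular {P : Fin 3 → F} (hP : E.Nonsingular P) : P ≠ 0 := by
  rintro rfl
  exact Projective.Y_ne_zero_of_Z_eq_zero hP rfl rfl

/-- The chord law adds points with distinct images. -/
theorem toAffine_addXYZ [DecidableEq F] {P Q : Fin 3 → F} (hP : E.Nonsingular P)
    (hQ : E.Nonsingular Q)
    (hne : Projective.Point.toAffine E P ≠ Projective.Point.toAffine E Q) :
    E.Nonsingular (E.addXYZ P Q) ∧ Projective.Point.toAffine E (E.addXYZ P Q) =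
      Projective.Point.toAffine E P + Projective.Point.toAffine E Q := by
  have h : ¬ P ≈ Q := fun he => hne (Projective.Point.toAffine_of_equiv he)
  rw [← Projective.add_of_not_equiv h]
  exact ⟨Projective.nonsingular_add hP hQ, Projective.Point.toAffine_add hP hQ⟩

end Field

section Place

variable {K k : Type} [Field K] [Field k] {A : ValuationSubring K} (π : A →+* k)
  (V : WeierstrassCurve A)

/-- `v` is a primitive vector of `P`, reducing to the vector of the reduction of `P`. -/
def Rep (P : (V.map A.subtype).toAffine.Point) (v : Fin 3 → A) : Prop :=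
  (V.map A.subtype).toProjective.Nonsingular (A.subtype ∘ v) ∧
    Projective.Point.toAffine (V.map A.subtype).toProjective (A.subtype ∘ v) = P ∧
    (V.map π).toProjective.Nonsingular (π ∘ v) ∧
    Projective.Point.toAffine (V.map π).toProjective (π ∘ v) = EC.Reduction.red π (V.map π) P

variable {π V}

theorem Rep.smul {P : (V.map A.subtype).toAffine.Point} {v : Fin 3 → A} (h : Rep π V P v) {c : A}
    (hc : IsUnit c) : Rep π V P (c • v) := by
  obtain ⟨h1, h2, h3, h4⟩ := h
  refine ⟨?_, ?_, ?_, ?_⟩
  · rw [Projective.comp_smul]; exact (Projective.nonsingular_smul _ (hc.map A.subtype)).mpr h1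
  · rw [Projective.comp_smul, Projective.Point.toAffine_smul _ (hc.map A.subtype), h2]
  · rw [Projective.comp_smul]; exact (Projective.nonsingular_smul _ (hc.map π)).mpr h3
  · rw [Projective.comp_smul, Projective.Point.toAffine_smul _ (hc.map π), h4]

theorem reduces_map : EC.Reduction.Reduces π (V.map A.subtype) (V.map π) := by
  refine ⟨?_, ?_, ?_, ?_, ?_⟩ <;> exact ⟨SetLike.coe_mem _, rfl⟩

/-- Every point has a primitive vector. -/
theorem exists_rep [IsLocalHom π] (hΔ : (V.map π).Δ ≠ 0) (P : (V.map A.subtype).toAffine.Point) :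
    ∃ v, Rep π V P v := by
  classical
  have hred : EC.Reduction.Reduces π (V.map A.subtype) (V.map π) := reduces_map
  rcases P with _ | ⟨a, b, h⟩
  · refine ⟨![0, 1, 0], ?_⟩
    have e : ∀ {R : Type} [CommRing R] (f : A →+* R), f ∘ ![(0 : A), 1, 0] = ![0, 1, 0] :=
      fun f => by rw [Projective.comp_fin3]; simp
    refine ⟨?_, ?_, ?_, ?_⟩
    · rw [e]; exact Projective.nonsingular_zero
    · rw [e]; exact Projective.Point.toAffine_zero
    · rw [e]; exact Projective.nonsingular_zero
    · rw [e, Projective.Point.toAffine_zero]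
      exact (EC.Reduction.red_eq EC.Reduction.RedTo.zero).symm
  by_cases ha : a ∈ A
  · have hb := hred.y_mem h.1 ha
    have hns : (V.map π).toAffine.Nonsingular (π ⟨a, ha⟩) (π ⟨b, hb⟩) :=
      (Affine.equation_iff_nonsingular_of_Δ_ne_zero hΔ).mp
        (hred.equation h.1 (EC.Reduction.Res.of_mem π ha) (EC.Reduction.Res.of_mem π hb))
    refine ⟨![⟨a, ha⟩, ⟨b, hb⟩, 1], ?_, ?_, ?_, ?_⟩ <;>
      rw [Projective.comp_fin3, map_one]
    · exact (Projective.nonsingular_some a b).mpr h
    · exact Projective.Point.toAffine_some ((Projective.nonsingular_some a b).mpr h)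
    · exact (Projective.nonsingular_some _ _).mpr hns
    · rw [Projective.Point.toAffine_some ((Projective.nonsingular_some _ _).mpr hns)]
      exact (EC.Reduction.red_eq (EC.Reduction.RedTo.of_res
        (EC.Reduction.Res.of_mem π ha) (EC.Reduction.Res.of_mem π hb))).symm
  · obtain ⟨hb, hab⟩ := hred.res_div_of_notMem h.1 ha
    have hb0 : b ≠ 0 := fun e => hb (e ▸ A.zero_mem)
    have hib := EC.Reduction.Res.inv_of_notMem π hb
    set v : Fin 3 → A := ![⟨a / b, hab.mem⟩, 1, ⟨b⁻¹, hib.mem⟩]
    have hv : A.subtype ∘ v = b⁻¹ • ![a, b, 1] := by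
      rw [Projective.comp_fin3, map_one]
      funext i
      fin_cases i <;> simp [div_eq_inv_mul, hb0]
    have hπ : π ∘ v = ![0, 1, 0] := by
      obtain ⟨h1, h2⟩ := hab
      obtain ⟨h3, h4⟩ := hib
      rw [Projective.comp_fin3, map_one]
      funext i
      fin_cases i <;> simp [h2, h4]
    have hu : IsUnit b⁻¹ := (inv_ne_zero hb0).isUnit
    refine ⟨v, ?_, ?_, ?_, ?_⟩
    · rw [hv]
      exact (Projective.nonsingular_smul _ hu).mpr ((Projective.nonsingular_some a b).mpr h)
    · rw [hv, Projective.Point.toAffine_smul _ hu]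
      exact Projective.Point.toAffine_some ((Projective.nonsingular_some a b).mpr h)
    · rw [hπ]; exact Projective.nonsingular_zero
    · rw [hπ, Projective.Point.toAffine_zero]
      exact (EC.Reduction.red_eq (EC.Reduction.RedTo.of_notMem ha)).symm

/-- The chord law on primitive vectors. -/
theorem Rep.add [DecidableEq K] [DecidableEq k] [IsLocalHom π] (hΔ : (V.map π).Δ ≠ 0)
    {P Q : (V.map A.subtype).toAffine.Point} {u v : Fin 3 → A} (hu : Rep π V P u)
    (hv : Rep π V Q v) (hne : EC.Reduction.red π (V.map π) P ≠ EC.Reduction.red π (V.map π) Q) :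
    Rep π V (P + Q) (V.toProjective.addXYZ u v) := by
  obtain ⟨u1, u2, u3, u4⟩ := hu
  obtain ⟨v1, v2, v3, v4⟩ := hv
  obtain ⟨a1, a2⟩ := toAffine_addXYZ u1 v1 (by rw [u2, v2]; exact fun e => hne (by rw [e]))
  obtain ⟨b1, b2⟩ := toAffine_addXYZ u3 v3 (by rwa [u4, v4])
  have e1 : A.subtype ∘ V.toProjective.addXYZ u v =
      (V.map A.subtype).toProjective.addXYZ (A.subtype ∘ u) (A.subtype ∘ v) :=
    (Projective.map_addXYZ A.subtype u v).symm
  have e2 : π ∘ V.toProjective.addXYZ u v = (V.map π).toProjective.addXYZ (π ∘ u) (π ∘ v) :=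
    (Projective.map_addXYZ π u v).symm
  refine ⟨?_, ?_, ?_, ?_⟩
  · rw [e1]; exact a1
  · rw [e1, a2, u2, v2]
  · rw [e2]; exact b1
  · rw [e2, b2, u4, v4]
    exact (map_add (EC.Reduction.redGood reduces_map hΔ) P Q).symm

end Place

end Fermat.Agent.FlatModel.Elliptic
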